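/-
Programme T1B, brick G4-b GENUS-RED (helper53 for helper32): **the Čech computation of `H¹(0)`,
characteristic-free.**

Port of `AV/F3_53/{Charts,Cech,Overlap}.lean` (which assume `CharZero` through the `X0/FF`
library) to an arbitrary function field: all inputs about the two charts are packaged in the
`Prop`-structure `ChartHyp K x`:
* strong approximation on the chart `{x regular}` and on the chart `{x⁻¹ regular}`;
* `x` has finitely many poles; every nonzero function has finitely many poles.

Under `ChartHyp K x`, with `B0 = regOn K (chartSet K x)`, `B1 = regOn K (chartSet K x⁻¹)`,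
`B01 = overlap K x = regOn K (chartSet K x ∩ chartSet K x⁻¹)`:

* `cechEquiv h : (B01 ⧸ (B0 + B1)) ≃ₗ[K] H1 (0 : Divisor K F)` (Prelude `AlgebraicCurve.H1`);
* `finrank_cech h : finrank K (B01 ⧸ (B0 + B1)) = genusFF K F` (Prelude `AlgebraicCurve.genusFF`);
* `mem_overlap_iff h : f ∈ B01 ↔ ∃ n, x ^ n * f ∈ B0`.

`Dedekind.lean` (same directory) produces `ChartHyp` from two Dedekind charts.
-/
import Mathlib
import Fermat.Agent.AV.F3_53.Overlap

set_option autoImplicit false

open AlgebraicCurve

namespace Fermat.Agent.T1B.GenusRed53.CechAbs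

open Fermat.Agent.X0.FF Fermat.Agent.AV.F3_53.Charts Fermat.Agent.AV.F3_53.Cech

variable {K F : Type*} [Field K] [Field F] [Algebra K F]

/-- The hypotheses on the two charts `{x regular}`, `{x⁻¹ regular}` of a function field. -/
structure ChartHyp (K : Type*) {F : Type*} [Field K] [Field F] [Algebra K F] (x : F) : Prop where
  /-- strong approximation on the chart of `x` -/
  approx0 : ∀ (S : Set (Place K F)), S.Finite → ∀ a : Place K F → F,
    ∃ g : F, (∀ v ∈ S, x ∈ v.toValuationSubring → g - a v ∈ v.toValuationSubring) ∧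
      ∀ v ∉ S, x ∈ v.toValuationSubring → g ∈ v.toValuationSubring
  /-- strong approximation on the chart of `x⁻¹` -/
  approx1 : ∀ (S : Set (Place K F)), S.Finite → ∀ a : Place K F → F,
    ∃ g : F, (∀ v ∈ S, x⁻¹ ∈ v.toValuationSubring → g - a v ∈ v.toValuationSubring) ∧
      ∀ v ∉ S, x⁻¹ ∈ v.toValuationSubring → g ∈ v.toValuationSubring
  /-- `x` has finitely many poles -/
  finite_compl : (chartSet K x)ᶜ.Finite
  /-- every nonzero function has finitely many poles -/
  finite_poles : ∀ f : F, f ≠ 0 → {v : Place K F | v.ord f < 0}.Finite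

/-! ### Repartitions = families with finitely many poles -/

theorem finite_poles_of_mem_repartitions
    (hfin : ∀ f : F, f ≠ 0 → {v : Place K F | v.ord f < 0}.Finite) {α : Place K F → F}
    (hα : α ∈ repartitions K F) : {v : Place K F | v.ord (α v) < 0}.Finite := by
  have key : ∀ β ∈ repartitions K F, {v : Place K F | ¬ v.adicValuation (β v) ≤ 1}.Finite := by
    intro β hβ
    induction hβ using Algebra.adjoin_induction with
    | mem x hx => exact hx
    | algebraMap f =>
      rcases eq_or_ne f 0 with rfl | hf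
      · convert Set.finite_empty
        ext v
        simp
      · refine (hfin f hf).subset ?_
        intro v hv
        exact (v.not_adicValuation_le_one_iff).mp hv
    | add x y _ _ hx hy =>
      refine (hx.union hy).subset ?_
      intro v hv
      by_contra hcon
      simp only [Set.mem_union, Set.mem_ofPred_eq, not_or, not_not] at hcon
      exact hv ((Valuation.map_add _ _ _).trans (max_le hcon.1 hcon.2))
    | mul x y _ _ hx hy =>
      refine (hx.union hy).subset ?_
      intro v hv
      by_contra hcon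
      simp only [Set.mem_union, Set.mem_ofPred_eq, not_or, not_not] at hcon
      apply hv
      show v.adicValuation (x v * y v) ≤ 1
      rw [map_mul]
      exact mul_le_one' hcon.1 hcon.2
  have := key α hα
  convert this using 1
  ext v
  exact (v.not_adicValuation_le_one_iff).symm

section Main

variable {x : F}

theorem poleFun_mem (h : ChartHyp K x) (f : F) : poleFun K x f ∈ repartitions K F := by
  apply mem_repartitions_of_finite_ord
  refine h.finite_compl.subset ?_
  intro v hv hmem
  have h1 : v.ord (poleFun K x f v) < 0 := hv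
  rw [poleFun_of_mem hmem, Place.ord_zero] at h1
  exact lt_irrefl _ h1

/-- The `K`-linear map `f ↦ (f at the poles of x, 0 elsewhere)`. -/
noncomputable def poleRep (h : ChartHyp K x) : F →ₗ[K] ↥(repartitions K F) where
  toFun f := ⟨poleFun K x f, poleFun_mem h f⟩
  map_add' f g := Subtype.ext (poleFun_add x f g)
  map_smul' c f := Subtype.ext (poleFun_smul x c f)

theorem poleRep_apply (h : ChartHyp K x) (f : F) (v : Place K F) :
    ((poleRep h f : ↥(repartitions K F)) : Place K F → F) v = poleFun K x f v := rfl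

/-- Every repartition has finitely many poles. -/
theorem finite_poles_all (h : ChartHyp K x) (α : ↥(repartitions K F)) :
    {v : Place K F | v.ord ((α : Place K F → F) v) < 0}.Finite :=
  finite_poles_of_mem_repartitions h.finite_poles α.2

/-- **Kernel.** For `f` regular on the overlap, the repartition of `f` is in `A(0) + F` iff
`f ∈ B0 + B1`. -/
theorem poleRep_mem_iff (h : ChartHyp K x) {f : F} (hf : f ∈ overlap K x) :
    poleRep h f ∈ repartitionsOf (0 : Divisor K F) ⊔ principalRepartitions K F ↔
      f ∈ sumSub K x := by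
  rw [mem_sup_iff]
  constructor
  · rintro ⟨g, hg⟩
    have hg0 : g ∈ regOn K (chartSet K x) := by
      intro v hv
      have h1 := hg v
      rw [poleRep_apply, poleFun_of_mem hv, zero_sub] at h1
      simpa using neg_mem h1
    have hg1 : f - g ∈ regOn K (chartSet K x⁻¹) := by
      intro v hv
      by_cases hxv : x ∈ v.toValuationSubring
      · exact sub_mem (hf v ⟨hxv, hv⟩) (hg0 v hxv)
      · have h1 := hg v
        rwa [poleRep_apply, poleFun_of_notMem hxv] at h1
    exact Submodule.mem_sup.mpr ⟨g, hg0, f - g, hg1, add_sub_cancel g f⟩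
  · intro h'
    obtain ⟨g, hg, g', hg', rfl⟩ := Submodule.mem_sup.mp h'
    refine ⟨g, fun v => ?_⟩
    by_cases hxv : x ∈ v.toValuationSubring
    · rw [poleRep_apply, poleFun_of_mem hxv, zero_sub]
      exact neg_mem (hg v hxv)
    · rw [poleRep_apply, poleFun_of_notMem hxv, add_sub_cancel_left]
      exact hg' v (inv_mem_of_notMem hxv)

/-- **Surjectivity.** Every repartition is, modulo `A(0) + F`, the repartition of a function
regular on the overlap. -/
theorem exists_poleRep_sub_mem (h : ChartHyp K x) (α : ↥(repartitions K F)) :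
    ∃ f ∈ overlap K x,
      α - poleRep h f ∈ repartitionsOf (0 : Divisor K F) ⊔ principalRepartitions K F := by
  -- Step 1: approximate `α` on the chart of `x`
  obtain ⟨g, hg1, hg2⟩ := h.approx0 _ (finite_poles_all h α)
    (fun v => (α : Place K F → F) v)
  have hstep1 : ∀ v : Place K F, x ∈ v.toValuationSubring →
      (α : Place K F → F) v - g ∈ v.toValuationSubring := by
    intro v hxv
    by_cases hv : v ∈ {v : Place K F | v.ord ((α : Place K F → F) v) < 0}
    · have := neg_mem (hg1 v hv hxv)
      rwa [neg_sub] at this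
    · have h1 : (α : Place K F → F) v ∈ v.toValuationSubring :=
        (ffp_mem_iff_ord_nonneg v).mpr (not_lt.mp hv)
      exact sub_mem h1 (hg2 v hv hxv)
  -- Step 2: approximate `α - g` at the poles of `x`, on the chart of `x⁻¹`
  obtain ⟨f, hf1, hf2⟩ := h.approx1 _ h.finite_compl
    (fun v => (α : Place K F → F) v - g)
  refine ⟨f, ?_, ?_⟩
  · rintro v ⟨hxv, hxv'⟩
    exact hf2 v (fun h' => h' hxv) hxv'
  · rw [mem_sup_iff]
    refine ⟨g, fun v => ?_⟩
    have hcoe : ((α - poleRep h f : ↥(repartitions K F)) : Place K F → F) v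
        = (α : Place K F → F) v - poleFun K x f v := rfl
    rw [hcoe]
    by_cases hxv : x ∈ v.toValuationSubring
    · rw [poleFun_of_mem hxv, sub_zero]
      exact hstep1 v hxv
    · rw [poleFun_of_notMem hxv]
      have h1 := neg_mem (hf1 v hxv (inv_mem_of_notMem hxv))
      have h2 : -(f - ((α : Place K F → F) v - g)) = (α : Place K F → F) v - f - g := by ring
      rwa [h2] at h1

/-- The Čech map `B01 → H¹(0)`. -/
noncomputable def cechMap (h : ChartHyp K x) :
    ↥(Subalgebra.toSubmodule (overlap K x)) →ₗ[K] H1 (0 : Divisor K F) :=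
  (repartitionsOf (0 : Divisor K F) ⊔ principalRepartitions K F).mkQ ∘ₗ poleRep h ∘ₗ
    (Subalgebra.toSubmodule (overlap K x)).subtype

theorem cechMap_surjective (h : ChartHyp K x) : Function.Surjective (cechMap h) := by
  intro z
  obtain ⟨α, rfl⟩ := Submodule.mkQ_surjective _ z
  obtain ⟨f, hf, h'⟩ := exists_poleRep_sub_mem h α
  refine ⟨⟨f, hf⟩, ?_⟩
  show (repartitionsOf (0 : Divisor K F) ⊔ principalRepartitions K F).mkQ (poleRep h f) = _
  rw [Submodule.mkQ_apply, Submodule.mkQ_apply, eq_comm, Submodule.Quotient.eq]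
  exact h'

theorem ker_cechMap (h : ChartHyp K x) :
    LinearMap.ker (cechMap h) =
      (sumSub K x).submoduleOf (Subalgebra.toSubmodule (overlap K x)) := by
  ext f
  rw [LinearMap.mem_ker]
  show (repartitionsOf (0 : Divisor K F) ⊔ principalRepartitions K F).mkQ (poleRep h (f : F)) = 0
    ↔ (f : F) ∈ sumSub K x
  rw [Submodule.mkQ_apply, Submodule.Quotient.mk_eq_zero]
  exact poleRep_mem_iff h f.2

/-- **The Čech computation of `H¹(0)`**: `B01 ⧸ (B0 + B1) ≃ H¹(0)`. -/
noncomputable def cechEquiv (h : ChartHyp K x) :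
    (↥(Subalgebra.toSubmodule (overlap K x)) ⧸
      (sumSub K x).submoduleOf (Subalgebra.toSubmodule (overlap K x))) ≃ₗ[K]
        H1 (0 : Divisor K F) :=
  (Submodule.quotEquivOfEq _ _ (ker_cechMap h).symm).trans
    ((cechMap h).quotKerEquivOfSurjective (cechMap_surjective h))

/-- **Čech genus**: `dim_K B01 ⧸ (B0 + B1) = genusFF K F`. -/
theorem finrank_cech (h : ChartHyp K x) :
    Module.finrank K (↥(Subalgebra.toSubmodule (overlap K x)) ⧸
      (sumSub K x).submoduleOf (Subalgebra.toSubmodule (overlap K x))) = genusFF K F :=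
  (cechEquiv h).finrank_eq

/-! ### The overlap ring is `B0[1/x]` -/

/-- A function regular on the overlap becomes regular on the chart of `x` after multiplication by
a power of `x`. -/
theorem exists_pow_mul_mem (h : ChartHyp K x) (hx0 : x ≠ 0) {f : F} (hf : f ∈ overlap K x) :
    ∃ n : ℕ, x ^ n * f ∈ regOn K (chartSet K x) := by
  classical
  rcases eq_or_ne f 0 with rfl | hf0
  · exact ⟨0, by rw [mul_zero]; exact zero_mem _⟩
  have hfin : {v : Place K F | v.ord f < 0}.Finite := h.finite_poles f hf0
  refine ⟨∑ v ∈ hfin.toFinset, (-(v.ord f)).toNat, ?_⟩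
  set n := ∑ v ∈ hfin.toFinset, (-(v.ord f)).toNat with hn
  intro v hv
  by_cases hpole : v.ord f < 0
  · -- `x⁻¹` is not regular at `v`, so `x` has a zero there
    have hx1 : x⁻¹ ∉ v.toValuationSubring := fun h1 =>
      absurd ((ffp_mem_iff_ord_nonneg v).mp (hf v ⟨hv, h1⟩)) (not_le.mpr hpole)
    have hordx : 1 ≤ v.ord x := by
      have h2 : ¬ (0 ≤ v.ord x⁻¹) := fun h3 => hx1 ((ffp_mem_iff_ord_nonneg v).mpr h3)
      rw [v.ord_inv] at h2
      omega
    have hle : (-(v.ord f)).toNat ≤ n := by
      rw [hn]
      exact Finset.single_le_sum (f := fun w : Place K F => (-(w.ord f)).toNat)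
        (fun _ _ => Nat.zero_le _) (hfin.mem_toFinset.mpr hpole)
    apply ffp_mem_of_ord_nonneg
    rw [v.ord_mul (pow_ne_zero _ hx0) hf0, ← zpow_natCast, v.ord_zpow]
    have h4 : (-(v.ord f)) ≤ ((-(v.ord f)).toNat : ℤ) := Int.self_le_toNat _
    have h5 : ((-(v.ord f)).toNat : ℤ) ≤ (n : ℤ) := by exact_mod_cast hle
    have h6 : (n : ℤ) * 1 ≤ (n : ℤ) * v.ord x :=
      mul_le_mul_of_nonneg_left hordx (Int.natCast_nonneg n)
    omega
  · have h1 : f ∈ v.toValuationSubring := (ffp_mem_iff_ord_nonneg v).mpr (not_lt.mp hpole)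
    exact mul_mem (pow_mem hv n) h1

/-- `B01 = B0[1/x]`. -/
theorem mem_overlap_iff (h : ChartHyp K x) (hx0 : x ≠ 0) (f : F) :
    f ∈ overlap K x ↔ ∃ n : ℕ, x ^ n * f ∈ regOn K (chartSet K x) :=
  ⟨exists_pow_mul_mem h hx0, fun ⟨_, hn⟩ =>
    Fermat.Agent.AV.F3_53.Overlap.mem_overlap_of_pow_mul_mem hx0 hn⟩

end Main

end Fermat.Agent.T1B.GenusRed53.CechAbs
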