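/-
Programme T1B, brick G4-b GENUS-RED (helper53 for helper32): **two Dedekind charts compute the
genus, characteristic-free.**

`F / K` any field extension (no hypothesis on `K`), `t : F`.  Two Dedekind domains `B0`, `B1` with
fraction field `F` (`K`-algebras), such that
* `t` regular at a place `v` implies `B0 ⊆ O_v`; `t⁻¹` regular at `v` implies `B1 ⊆ O_v`;
* `t⁻¹` is in (the image of) `B1`.
(The first condition follows from integrality over `K[t]`, `K[t⁻¹]`: `subset_of_isIntegral`.)
Then `ChartHyp K t` holds (`chartHyp_of_dedekind`), hence the Čech computation of `CechAbs.lean`.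

Subalgebra form (`SubalgebraForm`): for `B0 B1 B01 : Subalgebra K F` with `t ∈ B0`, `t⁻¹ ∈ B1`,
`B01 = B0[1/t]` (`hB01 : ∀ f, f ∈ B01 ↔ ∃ n, t ^ n * f ∈ B0`):
* `cechEquivSub : (B01 ⧸ (B0 + B1)) ≃ₗ[K] H1 (0 : Divisor K F)`;
* `finrank_sub : finrank K (B01 ⧸ (B0 + B1)) = genusFF K F`   (Prelude `AlgebraicCurve.genusFF`);
* `overlap_eq_sup : overlap K t = B0 ⊔ B1` (so `B01 := B0 ⊔ B1` is allowed: `finrank_sup`).
-/
import Mathlib
import Fermat.Agent.T1B.GenusRed53.CechAbs
import Fermat.Agent.X0.FFDedekind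
import Fermat.Agent.X0.FFConst

set_option autoImplicit false
set_option linter.unusedSectionVars false

open AlgebraicCurve IsDedekindDomain IsLocalRing

namespace Fermat.Agent.T1B.GenusRed53.Dedekind

open Fermat.Agent.X0.FF Fermat.Agent.X0.FFDedekind Fermat.Agent.AV.F3_53.Charts
  Fermat.Agent.AV.F3_53.Cech Fermat.Agent.T1B.GenusRed53.CechAbs

variable {K F : Type*} [Field K] [Field F] [Algebra K F]

/-! ### One Dedekind chart -/

section OneChart

variable {B : Type*} [CommRing B] [IsDedekindDomain B] [Algebra B F] [IsFractionRing B F]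
  [Algebra K B] [IsScalarTower K B F] {y : F}
  (hle : ∀ v : Place K F, y ∈ v.toValuationSubring →
    ∀ b : B, algebraMap B F b ∈ v.toValuationSubring)

include hle in
/-- **Strong approximation** on the chart `{y regular}`. -/
theorem exists_approx_of_dedekind (S : Set (Place K F)) (hS : S.Finite) (a : Place K F → F) :
    ∃ g : F, (∀ v ∈ S, y ∈ v.toValuationSubring → g - a v ∈ v.toValuationSubring) ∧
      ∀ v ∉ S, y ∈ v.toValuationSubring → g ∈ v.toValuationSubring := by
  classical
  let Φ : HeightOneSpectrum B → Place K F :=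
    fun w => Place.ofHeightOneSpectrum (K := K) (F := F) w
  have hΦ : Function.Injective Φ := ofHeightOneSpectrum_injective
  have hfin : (Φ ⁻¹' S).Finite := hS.preimage hΦ.injOn
  obtain ⟨g, hg1, hg2⟩ := Fermat.Agent.AV.F3_53.Approx.exists_approx (F := F) hfin.toFinset
    (fun w => a (Φ w))
  refine ⟨g, ?_, ?_⟩
  · intro v hv hyv
    have hB := hle v hyv
    have hw : Φ (centreSpec v hB) = v := ofHeightOneSpectrum_centreSpec v hB
    have h1 := hg1 (centreSpec v hB) (by
      rw [Set.Finite.mem_toFinset, Set.mem_preimage, hw]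
      exact hv)
    rw [mem_iff_valuation_centreSpec_le v hB]
    have h2 : a (Φ (centreSpec v hB)) = a v := congrArg a hw
    rw [← h2]
    exact h1
  · intro v hv hyv
    have hB := hle v hyv
    have hw : Φ (centreSpec v hB) = v := ofHeightOneSpectrum_centreSpec v hB
    have h1 := hg2 (centreSpec v hB) (by
      rw [Set.Finite.mem_toFinset, Set.mem_preimage, hw]
      exact hv)
    rw [mem_iff_valuation_centreSpec_le v hB]
    exact h1

/-- If `b` is not in the centre of `v`, its inverse is regular at `v`. -/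
theorem inv_mem_of_notMem_centre (v : Place K F)
    (hB : ∀ b : B, algebraMap B F b ∈ v.toValuationSubring) {s : B} (hs : s ∉ centre v hB) :
    (algebraMap B F s)⁻¹ ∈ v.toValuationSubring := by
  rw [mem_centre_iff, not_not] at hs
  obtain ⟨u, hu⟩ := hs
  have h2 : ((u⁻¹ : v.toValuationSubringˣ) : v.toValuationSubring) *
      toValuationSubringHom v hB s = 1 := by
    rw [← hu]; exact u.inv_mul
  have h3 := congrArg (Subtype.val : v.toValuationSubring → F) h2
  rw [MulMemClass.coe_mul, OneMemClass.coe_one, coe_toValuationSubringHom] at h3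
  rw [← eq_inv_of_mul_eq_one_left h3]
  exact ((u⁻¹ : v.toValuationSubringˣ) : v.toValuationSubring).2

include hle in
/-- A nonzero element of `B` is a non-unit at only finitely many places of the chart. -/
theorem finite_setOf_mem_centre {b : B} (hb : b ≠ 0) :
    {v : Place K F | ∃ hy : y ∈ v.toValuationSubring, b ∈ centre v (hle v hy)}.Finite := by
  have hI : (Ideal.span {b} : Ideal B) ≠ 0 := by
    rw [Ne, Ideal.zero_eq_bot, Ideal.span_singleton_eq_bot]
    exact hb
  have hfin : {w : HeightOneSpectrum B | b ∈ w.asIdeal}.Finite := by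
    refine (Ideal.finite_factors hI).subset ?_
    intro w hw
    exact Ideal.dvd_span_singleton.mpr hw
  refine (hfin.image (fun w => Place.ofHeightOneSpectrum (K := K) (F := F) w)).subset ?_
  rintro v ⟨hy, hbv⟩
  exact ⟨centreSpec v (hle v hy), hbv, ofHeightOneSpectrum_centreSpec v (hle v hy)⟩

include hle in
/-- A nonzero function has finitely many poles on the chart. -/
theorem finite_poles_chart {f : F} (_hf : f ≠ 0) :
    {v : Place K F | y ∈ v.toValuationSubring ∧ v.ord f < 0}.Finite := by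
  obtain ⟨a, s, hs, has⟩ := IsFractionRing.div_surjective (A := B) f
  have hs0 : s ≠ 0 := nonZeroDivisors.ne_zero hs
  refine (finite_setOf_mem_centre hle hs0).subset ?_
  rintro v ⟨hy, hv⟩
  refine ⟨hy, ?_⟩
  by_contra hcon
  have h1 := inv_mem_of_notMem_centre v (hle v hy) hcon
  have h2 : f ∈ v.toValuationSubring := by
    rw [← has, div_eq_mul_inv]
    exact mul_mem (hle v hy a) h1
  exact absurd ((ffp_mem_iff_ord_nonneg v).mp h2) (not_le.mpr hv)

include hle in
/-- If `y` is in `B`, the places where `y` is regular but not a unit are finite (`y ≠ 0`). -/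
theorem finite_zeros_chart (hy0 : y ≠ 0) (hyB : ∃ s : B, algebraMap B F s = y) :
    {v : Place K F | y⁻¹ ∉ v.toValuationSubring}.Finite := by
  obtain ⟨s, hs⟩ := hyB
  have hs0 : s ≠ 0 := by
    rintro rfl
    rw [map_zero] at hs
    exact hy0 hs.symm
  refine (finite_setOf_mem_centre hle hs0).subset ?_
  intro v hv
  have hyv : y ∈ v.toValuationSubring :=
    (v.toValuationSubring.mem_or_inv_mem y).resolve_right hv
  refine ⟨hyv, ?_⟩
  by_contra hcon
  have h1 := inv_mem_of_notMem_centre v (hle v hyv) hcon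
  rw [hs] at h1
  exact hv h1

include hle in
/-- The functions regular on the chart are the elements of `B`. -/
theorem mem_regOn_chartSet_iff_range (hyB : ∃ s : B, algebraMap B F s = y) (f : F) :
    f ∈ regOn K (chartSet K y) ↔ f ∈ (algebraMap B F).range := by
  constructor
  · intro hf
    apply HeightOneSpectrum.mem_integers_of_valuation_le_one F f
    intro w
    obtain ⟨s, hs⟩ := hyB
    exact hf (Place.ofHeightOneSpectrum (K := K) (F := F) w)
      (hs ▸ algebraMap_mem_ofHeightOneSpectrum w s)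
  · rintro ⟨b, rfl⟩ v hv
    exact hle v hv b

end OneChart

/-- Integrality over `K[y]` gives the containment hypothesis `h0` / `h1` of the main theorems:
if `y` is regular at `v` and `B` is integral over `K[y]` then `B ⊆ O_v`. -/
theorem subset_of_isIntegral {y : F} (B : Subalgebra K F)
    (hint : ∀ b ∈ B, IsIntegral (Algebra.adjoin K {y}) b) (v : Place K F)
    (hv : y ∈ v.toValuationSubring) : (B : Set F) ⊆ v.toValuationSubring := by
  intro b hb
  have h1 : Algebra.adjoin K {y} ≤ placeSubalgebra v :=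
    Algebra.adjoin_le (by simpa using hv)
  exact mem_of_isIntegral_of_algebraMap_mem v (A := Algebra.adjoin K {y})
    (fun a => h1 a.2) (hint b hb)

/-! ### Two Dedekind charts give `ChartHyp` -/

section TwoCharts

variable {B0 B1 : Type*} [CommRing B0] [IsDedekindDomain B0] [Algebra B0 F] [IsFractionRing B0 F]
  [Algebra K B0] [IsScalarTower K B0 F]
  [CommRing B1] [IsDedekindDomain B1] [Algebra B1 F] [IsFractionRing B1 F]
  [Algebra K B1] [IsScalarTower K B1 F] {t : F}

/-- **Two Dedekind charts satisfy the chart hypotheses.** -/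
theorem chartHyp_of_dedekind
    (hle0 : ∀ v : Place K F, t ∈ v.toValuationSubring →
      ∀ b : B0, algebraMap B0 F b ∈ v.toValuationSubring)
    (hle1 : ∀ v : Place K F, t⁻¹ ∈ v.toValuationSubring →
      ∀ b : B1, algebraMap B1 F b ∈ v.toValuationSubring)
    (ht1 : ∃ s : B1, algebraMap B1 F s = t⁻¹) : ChartHyp K t := by
  have hcompl : (chartSet K t)ᶜ.Finite := by
    rcases eq_or_ne t 0 with rfl | ht0
    · convert Set.finite_empty
      ext v
      simp only [Set.mem_compl_iff, Set.mem_empty_iff_false, iff_false, not_not]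
      exact v.toValuationSubring.zero_mem
    · have := finite_zeros_chart hle1 (inv_ne_zero ht0) ht1
      rwa [inv_inv] at this
  refine ⟨exists_approx_of_dedekind hle0, exists_approx_of_dedekind hle1, hcompl, ?_⟩
  intro f hf
  refine ((finite_poles_chart hle0 hf).union hcompl).subset ?_
  intro v hv
  by_cases htv : t ∈ v.toValuationSubring
  · exact Or.inl ⟨htv, hv⟩
  · exact Or.inr htv

end TwoCharts

/-! ### Subalgebra form -/

section SubalgebraForm

/-- `B0 + B1` inside `B01` (universe-polymorphic version of `AV.F3_53.Tensor.sumIn`, to which it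
is definitionally equal when `K` and `F` live in the same universe). -/
def sumIn (B0 B1 B01 : Subalgebra K F) : Submodule K ↥(Subalgebra.toSubmodule B01) :=
  (Subalgebra.toSubmodule B0 ⊔ Subalgebra.toSubmodule B1).submoduleOf (Subalgebra.toSubmodule B01)

theorem mem_sumIn_iff (B0 B1 B01 : Subalgebra K F) (f : ↥(Subalgebra.toSubmodule B01)) :
    f ∈ sumIn B0 B1 B01 ↔ ∃ a ∈ B0, ∃ b ∈ B1, a + b = (f : F) := by
  show (f : F) ∈ Subalgebra.toSubmodule B0 ⊔ Subalgebra.toSubmodule B1 ↔ _
  rw [Submodule.mem_sup]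
  rfl

variable {t : F} (B0 B1 B01 : Subalgebra K F) [IsDedekindDomain B0] [IsDedekindDomain B1]
  [IsFractionRing B0 F] [IsFractionRing B1 F]
  (ht0 : t ∈ B0) (ht1 : t⁻¹ ∈ B1)
  (h0 : ∀ v : Place K F, t ∈ v.toValuationSubring → (B0 : Set F) ⊆ v.toValuationSubring)
  (h1 : ∀ v : Place K F, t⁻¹ ∈ v.toValuationSubring → (B1 : Set F) ⊆ v.toValuationSubring)

include ht1 h0 h1 in
/-- The chart hypotheses for two Dedekind subalgebras. -/
theorem chartHyp_sub : ChartHyp K t :=
  chartHyp_of_dedekind (B0 := B0) (B1 := B1) (fun v hv b => h0 v hv b.2)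
    (fun v hv b => h1 v hv b.2) ⟨⟨t⁻¹, ht1⟩, rfl⟩

include ht0 h0 in
theorem B0_eq_regOn : B0 = regOn K (chartSet K t) := by
  apply SetLike.ext
  intro f
  rw [mem_regOn_chartSet_iff_range (B := B0) (fun v hv b => h0 v hv b.2) ⟨⟨t, ht0⟩, rfl⟩ f]
  constructor
  · intro hf
    exact ⟨⟨f, hf⟩, rfl⟩
  · rintro ⟨b, rfl⟩
    exact b.2

include ht1 h1 in
theorem B1_eq_regOn : B1 = regOn K (chartSet K t⁻¹) := by
  apply SetLike.ext
  intro f
  rw [mem_regOn_chartSet_iff_range (B := B1) (fun v hv b => h1 v hv b.2) ⟨⟨t⁻¹, ht1⟩, rfl⟩ f]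
  constructor
  · intro hf
    exact ⟨⟨f, hf⟩, rfl⟩
  · rintro ⟨b, rfl⟩
    exact b.2

include ht0 ht1 h0 h1 in
/-- `B01 = B0[1/t]` is the ring of functions regular on the overlap. -/
theorem B01_eq_overlap (ht : t ≠ 0) (hB01 : ∀ f : F, f ∈ B01 ↔ ∃ n : ℕ, t ^ n * f ∈ B0) :
    B01 = overlap K t := by
  apply SetLike.ext
  intro f
  rw [hB01, mem_overlap_iff (chartHyp_sub B0 B1 ht1 h0 h1) ht, ← B0_eq_regOn B0 ht0 h0]

include ht0 ht1 h0 h1 in
/-- The overlap ring is the subalgebra generated by the two charts. -/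
theorem overlap_eq_sup (ht : t ≠ 0) : overlap K t = B0 ⊔ B1 := by
  apply le_antisymm
  · intro f hf
    obtain ⟨n, hn⟩ := (mem_overlap_iff (chartHyp_sub B0 B1 ht1 h0 h1) ht f).mp hf
    rw [← B0_eq_regOn B0 ht0 h0] at hn
    have h1' : f = (t⁻¹) ^ n * (t ^ n * f) := by
      rw [← mul_assoc, ← mul_pow, inv_mul_cancel₀ ht, one_pow, one_mul]
    rw [h1']
    exact mul_mem (pow_mem ((le_sup_right : B1 ≤ B0 ⊔ B1) ht1) n)
      ((le_sup_left : B0 ≤ B0 ⊔ B1) hn)
  · refine sup_le ?_ ?_
    · rw [B0_eq_regOn B0 ht0 h0]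
      exact regOn_anti Set.inter_subset_left
    · rw [B1_eq_regOn B1 ht1 h1]
      exact regOn_anti Set.inter_subset_right

include ht0 ht1 h0 h1 in
/-- **The Čech computation, subalgebra form**: `B01 ⧸ (B0 + B1) ≃ H¹(0)`. -/
noncomputable def cechEquivSub (ht : t ≠ 0)
    (hB01 : ∀ f : F, f ∈ B01 ↔ ∃ n : ℕ, t ^ n * f ∈ B0) :
    (↥(Subalgebra.toSubmodule B01) ⧸ sumIn B0 B1 B01) ≃ₗ[K]
      H1 (0 : Divisor K F) := by
  have e0 := B0_eq_regOn B0 ht0 h0
  have e1 := B1_eq_regOn B1 ht1 h1
  have e01 := B01_eq_overlap B0 B1 B01 ht0 ht1 h0 h1 ht hB01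
  have hc := chartHyp_sub B0 B1 ht1 h0 h1
  subst e0 e1 e01
  exact cechEquiv hc

include ht0 ht1 h0 h1 in
/-- **Čech genus, subalgebra form**: `dim_K B01 ⧸ (B0 + B1) = genusFF K F`. -/
theorem finrank_sub (ht : t ≠ 0) (hB01 : ∀ f : F, f ∈ B01 ↔ ∃ n : ℕ, t ^ n * f ∈ B0) :
    Module.finrank K (↥(Subalgebra.toSubmodule B01) ⧸
      sumIn B0 B1 B01) = genusFF K F :=
  (cechEquivSub B0 B1 B01 ht0 ht1 h0 h1 ht hB01).finrank_eq

include ht0 ht1 h0 h1 in
/-- The same with `B01 := B0 ⊔ B1`. -/
theorem finrank_sup (ht : t ≠ 0) :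
    Module.finrank K (↥(Subalgebra.toSubmodule (B0 ⊔ B1)) ⧸
      sumIn B0 B1 (B0 ⊔ B1)) = genusFF K F := by
  have e0 := B0_eq_regOn B0 ht0 h0
  have e1 := B1_eq_regOn B1 ht1 h1
  have e01 := overlap_eq_sup B0 B1 ht0 ht1 h0 h1 ht
  have hc := chartHyp_sub B0 B1 ht1 h0 h1
  rw [← e01]
  subst e0 e1
  exact finrank_cech hc

end SubalgebraForm

end Fermat.Agent.T1B.GenusRed53.Dedekind
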